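import Mathlib
import Fermat.Prelude.Def_FLTPrelim_FreyPackage
import Fermat.Prelude.Def_FLTPrelim_Modularity

set_option autoImplicit false

/-! Basic facts on the Frey curve: integral model, discriminant, `c₄`, semistability. -/

namespace FreyPackage

namespace AgentFrey

variable (P : FreyPackage)

lemma a_pow_mod_four : ∃ k : ℤ, P.a ^ P.p = 4 * k + 3 := by
  have h : ((P.a ^ P.p : ℤ) : ZMod 4) = ((3 : ℤ) : ZMod 4) := by
    push_cast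
    rw [P.ha4]
    obtain ⟨k, hk⟩ := P.hp_odd
    rw [hk, pow_add, pow_mul]
    have : (3 : ZMod 4) ^ 2 = 1 := by decide
    rw [this]; simp
  rw [ZMod.intCast_eq_intCast_iff_dvd_sub] at h
  obtain ⟨k, hk⟩ := h
  exact ⟨-k, by push_cast at hk; linarith⟩

lemma b_pow_dvd : ∃ k : ℤ, P.b ^ P.p = 32 * k := by
  have h2 : (2 : ℤ) ∣ P.b := (ZMod.intCast_zmod_eq_zero_iff_dvd P.b 2).1 P.hb2
  have h : (2 : ℤ) ^ 5 ∣ P.b ^ P.p :=
    (pow_dvd_pow_of_dvd h2 5).trans (pow_dvd_pow P.b P.hp5)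
  obtain ⟨k, hk⟩ := h
  exact ⟨k, by rw [hk]; norm_num⟩

/-- the integral `a₂`. -/
lemma four_mul_a₂ : 4 * P.freyCurveInt.a₂ = P.b ^ P.p - 1 - P.a ^ P.p := by
  obtain ⟨k, hk⟩ := a_pow_mod_four P
  obtain ⟨l, hl⟩ := b_pow_dvd P
  change 4 * ((P.b ^ P.p - 1 - P.a ^ P.p) / 4) = _
  rw [hk, hl]
  omega

lemma sixteen_mul_a₄ : 16 * P.freyCurveInt.a₄ = - (P.a ^ P.p) * (P.b ^ P.p) := by
  obtain ⟨l, hl⟩ := b_pow_dvd P
  change 16 * ((-(P.a ^ P.p) * (P.b ^ P.p)) / 16) = _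
  apply Int.mul_ediv_cancel'
  rw [hl]
  exact ⟨-(P.a ^ P.p) * (2 * l), by ring⟩

lemma map_freyCurveInt : P.freyCurveInt.map (Int.castRingHom ℚ) = P.freyCurve := by
  have h2 := four_mul_a₂ P
  have h4 := sixteen_mul_a₄ P
  have h2' : (4 : ℚ) * (P.freyCurveInt.a₂ : ℚ) = (P.b : ℚ) ^ P.p - 1 - (P.a : ℚ) ^ P.p := by
    exact_mod_cast h2
  have h4' : (16 : ℚ) * (P.freyCurveInt.a₄ : ℚ) = - ((P.a : ℚ) ^ P.p) * ((P.b : ℚ) ^ P.p) := by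
    exact_mod_cast h4
  ext
  · simp [freyCurveInt, freyCurve]
  · change ((P.freyCurveInt.a₂ : ℤ) : ℚ) = ((P.b : ℚ) ^ P.p - 1 - (P.a : ℚ) ^ P.p) / 4
    rw [← h2']; ring
  · simp [freyCurveInt, freyCurve]
  · change ((P.freyCurveInt.a₄ : ℤ) : ℚ) = -((P.a : ℚ) ^ P.p) * ((P.b : ℚ) ^ P.p) / 16
    rw [← h4']; ring
  · simp [freyCurveInt, freyCurve]

lemma isIntegralModelOf : P.freyCurveInt.IsIntegralModelOf P.freyCurve :=
  ⟨1, by rw [map_freyCurveInt, one_smul]⟩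

lemma freyCurveInt_a₁ : P.freyCurveInt.a₁ = 1 := rfl
lemma freyCurveInt_a₃ : P.freyCurveInt.a₃ = 0 := rfl
lemma freyCurveInt_a₆ : P.freyCurveInt.a₆ = 0 := rfl

lemma freyCurveInt_c₄ : P.freyCurveInt.c₄ =
    (P.a ^ P.p) ^ 2 + P.a ^ P.p * P.b ^ P.p + (P.b ^ P.p) ^ 2 := by
  have h2 := four_mul_a₂ P
  have h4 := sixteen_mul_a₄ P
  have e2 : P.b ^ P.p - P.a ^ P.p = 4 * P.freyCurveInt.a₂ + 1 := by linarith
  have e4 : P.a ^ P.p * P.b ^ P.p = -(16 * P.freyCurveInt.a₄) := by rw [h4]; ring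
  have e : (P.a ^ P.p) ^ 2 + P.a ^ P.p * P.b ^ P.p + (P.b ^ P.p) ^ 2 =
      (P.b ^ P.p - P.a ^ P.p) ^ 2 + 3 * (P.a ^ P.p * P.b ^ P.p) := by ring
  rw [e, e2, e4]
  simp only [WeierstrassCurve.c₄, WeierstrassCurve.b₂, WeierstrassCurve.b₄, freyCurveInt_a₁,
    freyCurveInt_a₃]
  ring

lemma freyCurveInt_Δ : 256 * P.freyCurveInt.Δ =
    (P.a ^ P.p * P.b ^ P.p * P.c ^ P.p) ^ 2 := by
  have h2 := four_mul_a₂ P
  have h4 := sixteen_mul_a₄ P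
  have e2 : P.b ^ P.p - P.a ^ P.p = 4 * P.freyCurveInt.a₂ + 1 := by linarith
  have e4 : P.a ^ P.p * P.b ^ P.p = -(16 * P.freyCurveInt.a₄) := by rw [h4]; ring
  have e : (P.a ^ P.p * P.b ^ P.p * P.c ^ P.p) ^ 2 =
      (P.a ^ P.p * P.b ^ P.p) ^ 2 *
        ((P.b ^ P.p - P.a ^ P.p) ^ 2 + 4 * (P.a ^ P.p * P.b ^ P.p)) := by
    rw [← P.hFLT]; ring
  rw [e, e2, e4]
  simp only [WeierstrassCurve.Δ, WeierstrassCurve.b₂, WeierstrassCurve.b₄,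
    WeierstrassCurve.b₆, WeierstrassCurve.b₈, freyCurveInt_a₁,
    freyCurveInt_a₃, freyCurveInt_a₆]
  ring

lemma freyCurveInt_Δ_ne_zero : P.freyCurveInt.Δ ≠ 0 := by
  intro h
  have := freyCurveInt_Δ P
  rw [h, mul_zero] at this
  have h3 : P.a ^ P.p * P.b ^ P.p * P.c ^ P.p ≠ 0 :=
    mul_ne_zero (mul_ne_zero (pow_ne_zero _ P.ha0) (pow_ne_zero _ P.hb0)) (pow_ne_zero _ P.hc0)
  exact h3 (pow_eq_zero_iff (two_ne_zero) |>.1 this.symm)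

lemma prime_dvd_Δ {q : ℕ} (hq : q.Prime) (h : (q : ℤ) ∣ P.freyCurveInt.Δ) :
    (q : ℤ) ∣ P.a * P.b * P.c := by
  have hq' : Prime (q : ℤ) := Nat.prime_iff_prime_int.1 hq
  have h1 : (q : ℤ) ∣ (P.a ^ P.p * P.b ^ P.p * P.c ^ P.p) ^ 2 := by
    rw [← freyCurveInt_Δ P]; exact Dvd.dvd.mul_left h 256
  have h2 := hq'.dvd_of_dvd_pow h1
  rw [← mul_pow, ← mul_pow] at h2
  exact hq'.dvd_of_dvd_pow h2

lemma not_isUnit_of_dvd_both {q : ℕ} (hq : q.Prime) {x y : ℤ} (hx : (q : ℤ) ∣ x)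
    (hy : (q : ℤ) ∣ y) (hxy : gcd x y = 1) : False := by
  have hq' : Prime (q : ℤ) := Nat.prime_iff_prime_int.1 hq
  have h := dvd_gcd hx hy
  rw [hxy] at h
  exact hq'.not_unit (isUnit_of_dvd_one h)

lemma prime_dvd_abc_not_dvd_c₄ {q : ℕ} (hq : q.Prime) (h : (q : ℤ) ∣ P.a * P.b * P.c) :
    ¬ (q : ℤ) ∣ P.freyCurveInt.c₄ := by
  have hq' : Prime (q : ℤ) := Nat.prime_iff_prime_int.1 hq
  rw [freyCurveInt_c₄]
  intro hc
  have key : ∀ {x y : ℤ}, (q : ℤ) ∣ x → (q : ℤ) ∣ y → gcd x y = 1 → False :=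
    fun hx hy hxy => not_isUnit_of_dvd_both hq hx hy hxy
  rcases hq'.dvd_or_dvd h with h | h
  · rcases hq'.dvd_or_dvd h with h | h
    · have hA : (q : ℤ) ∣ P.a ^ P.p := dvd_pow h P.hp0
      have : (q : ℤ) ∣ (P.b ^ P.p) ^ 2 := by
        have e : (P.b ^ P.p) ^ 2 = ((P.a ^ P.p) ^ 2 + P.a ^ P.p * P.b ^ P.p + (P.b ^ P.p) ^ 2) -
          P.a ^ P.p * (P.a ^ P.p + P.b ^ P.p) := by ring
        rw [e]; exact dvd_sub hc (Dvd.dvd.mul_right hA _)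
      exact key h (hq'.dvd_of_dvd_pow (hq'.dvd_of_dvd_pow this)) P.hgcdab
    · have hB : (q : ℤ) ∣ P.b ^ P.p := dvd_pow h P.hp0
      have : (q : ℤ) ∣ (P.a ^ P.p) ^ 2 := by
        have e : (P.a ^ P.p) ^ 2 = ((P.a ^ P.p) ^ 2 + P.a ^ P.p * P.b ^ P.p + (P.b ^ P.p) ^ 2) -
          P.b ^ P.p * (P.a ^ P.p + P.b ^ P.p) := by ring
        rw [e]; exact dvd_sub hc (Dvd.dvd.mul_right hB _)
      exact key (hq'.dvd_of_dvd_pow (hq'.dvd_of_dvd_pow this)) h P.hgcdab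
  · have hC : (q : ℤ) ∣ P.c ^ P.p := dvd_pow h P.hp0
    have : (q : ℤ) ∣ P.a ^ P.p * P.b ^ P.p := by
      have e : P.a ^ P.p * P.b ^ P.p = P.c ^ P.p * (P.a ^ P.p + P.b ^ P.p) -
         ((P.a ^ P.p) ^ 2 + P.a ^ P.p * P.b ^ P.p + (P.b ^ P.p) ^ 2)  := by
        rw [← P.hFLT]; ring
      rw [e]; exact dvd_sub (Dvd.dvd.mul_right hC _) hc
    rcases hq'.dvd_or_dvd this with h' | h'
    · exact key (hq'.dvd_of_dvd_pow h') h P.hgcdac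
    · exact key (hq'.dvd_of_dvd_pow h') h P.hgcdbc

lemma isSemistableModel : P.freyCurveInt.IsSemistableModel := fun _ hq h =>
  prime_dvd_abc_not_dvd_c₄ P hq (prime_dvd_Δ P hq h)

/-- S60 implies S04. -/
theorem isModular_of_semistable_modularity
    (h60 : ∀ W : WeierstrassCurve ℤ, W.Δ ≠ 0 → W.IsSemistableModel →
      (W.map (Int.castRingHom ℚ)).IsModular) : P.freyCurve.IsModular := by
  have := h60 P.freyCurveInt (freyCurveInt_Δ_ne_zero P) (isSemistableModel P)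
  rwa [map_freyCurveInt] at this

end AgentFrey

end FreyPackage
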