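/-
The Frey curve: `ModularRepOfLevel` in terms of rescaled integral models; `S39 ⇒ S44`.
-/
import Mathlib
import Fermat.Prelude.Def_FreyPackage_IsConductorLevel
import Fermat.Prelude.Def_WeierstrassCurve_PeuRamifiee
import Fermat.Agent.Lib.VariableChangePoint
import Fermat.Agent.Frey.CurveFacts

set_option autoImplicit false

namespace FreyPackage

namespace AgentFrey

open WeierstrassCurve Fermat.Agent.VarChange

variable (P : FreyPackage)

/-- The product of the primes dividing `m`, except `p`. -/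
def primeToPart (m : ℤ) (p : ℕ) : ℤ := ((∏ q ∈ m.natAbs.primeFactors.erase p, q : ℕ) : ℤ)

lemma primeToPart_ne_zero (m : ℤ) (p : ℕ) : primeToPart m p ≠ 0 := by
  rw [primeToPart, Nat.cast_ne_zero, Finset.prod_ne_zero_iff]
  intro q hq
  exact (Nat.prime_of_mem_primeFactors (Finset.mem_of_mem_erase hq)).ne_zero

lemma dvd_primeToPart {m : ℤ} {p ℓ : ℕ} (hm : m ≠ 0) (hℓ : ℓ.Prime) (hℓp : ℓ ≠ p)
    (h : (ℓ : ℤ) ∣ m) : (ℓ : ℤ) ∣ primeToPart m p := by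
  rw [primeToPart, Int.natCast_dvd_natCast]
  refine Finset.dvd_prod_of_mem _ (Finset.mem_erase.2 ⟨hℓp, ?_⟩)
  rw [Nat.mem_primeFactors]
  exact ⟨hℓ, Int.natCast_dvd.1 h, Int.natAbs_ne_zero.2 hm⟩

lemma not_dvd_primeToPart {m : ℤ} {p : ℕ} (hp : p.Prime) : ¬ (p : ℤ) ∣ primeToPart m p := by
  rw [primeToPart, Int.natCast_dvd_natCast, (Nat.prime_iff.1 hp).dvd_finsetProd_iff]
  rintro ⟨q, hq, hpq⟩
  have hq' := Finset.mem_erase.1 hq
  exact hq'.1 ((Nat.prime_dvd_prime_iff_eq hp (Nat.prime_of_mem_primeFactors hq'.2)).1 hpq).symm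

lemma integralModel_Δ_ne_zero {W : WeierstrassCurve ℤ} (h : W.IsIntegralModelOf P.freyCurve) :
    W.Δ ≠ 0 := by
  obtain ⟨C, hC⟩ := h
  intro h0
  have h1 : (C • P.freyCurve).Δ = 0 := by rw [hC, map_Δ, h0, map_zero]
  rw [variableChange_Δ] at h1
  have h2 : P.freyCurve.Δ = ((P.freyCurveInt.Δ : ℤ) : ℚ) := by
    rw [← map_freyCurveInt, map_Δ]; rfl
  rw [h2] at h1
  have h3 : ((P.freyCurveInt.Δ : ℤ) : ℚ) ≠ 0 := by exact_mod_cast freyCurveInt_Δ_ne_zero P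
  exact (mul_ne_zero (pow_ne_zero _ (Units.ne_zero _)) h3) h1

/-- From `ModularRepOfLevel N` to a residual modularity of a rescaled model of `freyCurveInt`
which is still minimal at `p`. -/
theorem exists_rescale_of_modularRepOfLevel {N : ℕ} (h : P.ModularRepOfLevel N) :
    ∃ n : ℤ, n ≠ 0 ∧ ¬ (P.p : ℤ) ∣ n ∧
      (rescale P.freyCurveInt n).IsResiduallyModularOfLevel P.p N := by
  obtain ⟨f, W, 𝔪, hf, hW, h𝔪, hp, hcong⟩ := h
  have hΔ := integralModel_Δ_ne_zero P hW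
  refine ⟨primeToPart W.Δ P.p, primeToPart_ne_zero _ _, not_dvd_primeToPart P.pp,
    f, 𝔪, hf, h𝔪, hp, ?_⟩
  intro ℓ hℓ hgood hN hℓp
  obtain ⟨hn, -⟩ := (isGoodPrimeFor_rescale hℓ).1 hgood
  have hWgood : W.IsGoodPrimeFor ℓ := fun hd => hn (dvd_primeToPart hΔ hℓ hℓp hd)
  obtain ⟨a, ha, ha'⟩ := hcong ℓ hℓ hWgood hN hℓp
  refine ⟨a, ha, ?_⟩
  rwa [apOfModel_eq_of_isIntegralModelOf
    (rescale_isIntegralModelOf (isIntegralModelOf P) (primeToPart_ne_zero _ _)) hW hℓ hgood hWgood]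

/-- A residual modularity of any integral model of the Frey curve gives `ModularRepOfLevel`. -/
theorem modularRepOfLevel_of_isResiduallyModularOfLevel {N : ℕ} {W : WeierstrassCurve ℤ}
    (hW : W.IsIntegralModelOf P.freyCurve) (h : W.IsResiduallyModularOfLevel P.p N) :
    P.ModularRepOfLevel N := by
  obtain ⟨f, 𝔪, hf, h𝔪, hp, hcong⟩ := h
  exact ⟨f, W, 𝔪, hf, hW, h𝔪, hp, hcong⟩

/-- `ModularRepOfLevel N` only depends on almost all primes. -/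
theorem modularRepOfLevel_of_almost_all {N : ℕ}
    (f : CuspForm (CongruenceSubgroup.Gamma0 N) 2) (hf : f.IsNormalizedEigenform)
    (𝔪 : Ideal (integralClosure ℤ ℂ)) (h𝔪 : 𝔪.IsMaximal) (hp : (P.p : integralClosure ℤ ℂ) ∈ 𝔪)
    {W : WeierstrassCurve ℤ} (hW : W.IsIntegralModelOf P.freyCurve) (m : ℤ) (hm : m ≠ 0)
    (h : ∀ ℓ : ℕ, ℓ.Prime → W.IsGoodPrimeFor ℓ → ¬ ℓ ∣ N → ℓ ≠ P.p → ¬ (ℓ : ℤ) ∣ m →
      ∃ a : integralClosure ℤ ℂ, (a : ℂ) = ModularFormClass.qCoeff f ℓ ∧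
        a - ((W.apOfModel ℓ : ℤ) : integralClosure ℤ ℂ) ∈ 𝔪) :
    P.ModularRepOfLevel N := by
  refine ⟨f, rescale W m, 𝔪, hf, rescale_isIntegralModelOf hW hm, h𝔪, hp, ?_⟩
  intro ℓ hℓ hgood hN hℓp
  obtain ⟨hn, hg⟩ := (isGoodPrimeFor_rescale hℓ).1 hgood
  obtain ⟨a, ha, ha'⟩ := h ℓ hℓ hg hN hℓp hn
  refine ⟨a, ha, ?_⟩
  rwa [apOfModel_eq_of_isIntegralModelOf (rescale_isIntegralModelOf hW hm) hW hℓ hgood hg]

lemma padicValInt_freyCurveInt_Δ :
    (P.p : ℤ) ∣ padicValRat P.p (P.freyCurveInt.map (Int.castRingHom ℚ)).Δ := by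
  have : Fact P.p.Prime := ⟨P.pp⟩
  have hp2 : P.p ≠ 2 := by have := P.hp5; omega
  have e := freyCurveInt_Δ P
  have eQ : ((2 : ℕ) : ℚ) ^ 8 * (P.freyCurveInt.map (Int.castRingHom ℚ)).Δ =
      ((P.a * P.b * P.c : ℤ) : ℚ) ^ (P.p * 2) := by
    rw [map_Δ]
    have : ((256 * P.freyCurveInt.Δ : ℤ) : ℚ) =
      (((P.a ^ P.p * P.b ^ P.p * P.c ^ P.p) ^ 2 : ℤ) : ℚ) := by rw [e]
    push_cast at this ⊢
    rw [eq_intCast]
    norm_num
    rw [this]
    ring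
  have hΔ : (P.freyCurveInt.map (Int.castRingHom ℚ)).Δ ≠ 0 := by
    rw [map_Δ, eq_intCast]
    exact_mod_cast freyCurveInt_Δ_ne_zero P
  have h2 : padicValRat P.p (((2 : ℕ) : ℚ) ^ 8) = 0 := by
    rw [padicValRat.pow, padicValRat.of_nat]
    have : padicValNat P.p 2 = 0 := by
      rw [padicValNat_primes (p := P.p) (q := 2) hp2]
    rw [this]; simp
  have habc : ((P.a * P.b * P.c : ℤ) : ℚ) ≠ 0 := by exact_mod_cast P.habc0
  have := congrArg (padicValRat P.p) eQ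
  rw [padicValRat.mul (by norm_num) hΔ, h2, zero_add, padicValRat.pow] at this
  rw [this]
  push_cast
  exact ⟨2 * padicValRat P.p ((P.a * P.b * P.c : ℤ) : ℚ), by push_cast; ring⟩

/-- `S39 ⇒ S44`. -/
theorem s44_of_s39
    (h39 : ∀ (W : WeierstrassCurve ℤ) (_ : W.Δ ≠ 0)
      {p : ℕ} (_ : p.Prime) (_ : p ≠ 2)
      (_ : (p : ℤ) ∣ W.Δ → ¬ (p : ℤ) ∣ W.c₄)
      (_ : W.ModRepIsIrreducible p)
      (_ : (W.map (Int.castRingHom ℚ)).IsPeuRamifieeAt p p)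
      {M : ℕ} (_ : 0 < M) (_ : p ∣ M) (_ : ¬ p ^ 2 ∣ M)
      (_ : W.IsResiduallyModularOfLevel p M),
      W.IsResiduallyModularOfLevel p (M / p))
    {N : ℕ} (hcond : P.IsConductorLevel N) (hpN : P.p ∣ N)
    (hirr : WeierstrassCurve.Affine.Point.GaloisRepIsIrreducible (K := AlgebraicClosure ℚ) ℚ
      P.freyCurve P.p) (hmod : P.ModularRepOfLevel N) :
    ∃ M : ℕ, M ∣ N ∧ ¬ P.p ∣ M ∧ P.ModularRepOfLevel M := by
  have : Fact P.p.Prime := ⟨P.pp⟩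
  obtain ⟨n, hn0, hpn, hres⟩ := exists_rescale_of_modularRepOfLevel P hmod
  have hp' : Prime (P.p : ℤ) := Nat.prime_iff_prime_int.1 P.pp
  have hW := rescale_isIntegralModelOf (isIntegralModelOf P) hn0
  have hp2 : P.p ≠ 2 := by have := P.hp5; omega
  refine ⟨N / P.p, Nat.div_dvd_of_dvd hpN, ?_, ?_⟩
  · intro hd
    refine hcond.sq_not_dvd P.pp ?_
    obtain ⟨k, hk⟩ := hpN
    rw [hk, Nat.mul_div_cancel_left _ P.hppos] at hd
    rw [hk, pow_two]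
    exact Nat.mul_dvd_mul_left _ hd
  · refine modularRepOfLevel_of_isResiduallyModularOfLevel P hW ?_
    refine h39 _ (integralModel_Δ_ne_zero P hW) P.pp hp2 ?_ ?_ ?_ hcond.pos hpN
      (hcond.sq_not_dvd P.pp) hres
    · intro _ hc
      rw [rescale_c₄] at hc
      rcases hp'.dvd_or_dvd hc with hc | hc
      · exact hpn (hp'.dvd_of_dvd_pow hc)
      · exact prime_dvd_abc_not_dvd_c₄ P P.pp (hcond.support P.p P.pp hpN) hc
    · exact (modRepIsIrreducible_iff_of_isIntegralModelOf hW P.p).2 hirr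
    · have h1 := padicValInt_freyCurveInt_Δ P
      have hΔ : (P.freyCurveInt.map (Int.castRingHom ℚ)).Δ ≠ 0 := by
        rw [map_Δ, eq_intCast]
        exact_mod_cast freyCurveInt_Δ_ne_zero P
      have hn : ((n : ℤ) : ℚ) ≠ 0 := by exact_mod_cast hn0
      have e : ((rescale P.freyCurveInt n).map (Int.castRingHom ℚ)).Δ =
          ((n : ℤ) : ℚ) ^ 12 * (P.freyCurveInt.map (Int.castRingHom ℚ)).Δ := by
        rw [map_Δ, map_Δ, rescale_Δ]
        simp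
      have hv : padicValRat P.p ((n : ℤ) : ℚ) = 0 := by
        rw [padicValRat.of_int, padicValInt.eq_zero_of_not_dvd hpn]; rfl
      rw [IsPeuRamifieeAt, e, padicValRat.mul (pow_ne_zero _ hn) hΔ, padicValRat.pow, hv,
        mul_zero, zero_add]
      exact h1

end AgentFrey

end FreyPackage
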